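import Mathlib

/-!
# S24, analytic side: the ring `Hol` of holomorphic functions on `ℍ`

* `Hol` : the `ℂ`-subalgebra of `ℍ → ℂ` of holomorphic functions, an integral domain.
* the action of `SL(2, ℤ)` on `Hol` by `(γ • f) τ = f (γ⁻¹ • τ)`.
* `Hol.ordVal τ` : the valuation "order of vanishing at `τ`" on `Hol`.

All proofs complete (helper1); signatures as in helper23's skeleton. Extra lemmas:
`Hol.analyticOrderAt_ne_top`, `Hol.cast_ordNat`, `Hol.ordNat_add_ge`, `Hol.ordNat_smul`,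
`Hol.comp_ofComplex_apply`.
-/

set_option autoImplicit false

noncomputable section

namespace Fermat.Agent.S24

open UpperHalfPlane WithZero
open scoped MatrixGroups Manifold

/-- The `ℂ`-algebra of holomorphic functions on the upper half plane. -/
def Hol : Subalgebra ℂ (ℍ → ℂ) where
  carrier := {f | MDifferentiable 𝓘(ℂ) 𝓘(ℂ) f}
  mul_mem' := fun {f g} hf hg => MDifferentiable.mul hf hg
  add_mem' := fun {f g} hf hg => MDifferentiable.add hf hg
  algebraMap_mem' := fun c => by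
    show MDifferentiable 𝓘(ℂ) 𝓘(ℂ) (fun _ : ℍ => c)
    exact mdifferentiable_const

namespace Hol

theorem mem_iff {f : ℍ → ℂ} : f ∈ Hol ↔ MDifferentiable 𝓘(ℂ) 𝓘(ℂ) f := Iff.rfl

theorem mdifferentiable (f : Hol) : MDifferentiable 𝓘(ℂ) 𝓘(ℂ) (f : ℍ → ℂ) := f.2

theorem differentiableOn (f : Hol) :
    DifferentiableOn ℂ ((f : ℍ → ℂ) ∘ ofComplex) upperHalfPlaneSet :=
  UpperHalfPlane.mdifferentiable_iff.mp f.2

theorem analyticAt (f : Hol) (τ : ℍ) : AnalyticAt ℂ ((f : ℍ → ℂ) ∘ ofComplex) (τ : ℂ) :=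
  ((Hol.differentiableOn f).analyticOnNhd isOpen_upperHalfPlaneSet) τ τ.im_pos

/-- Identity theorem: `Hol` has no zero divisors. -/
instance : IsDomain Hol := by
  have : Nontrivial Hol := ⟨⟨0, 1, fun h => by
    have := congrArg (fun f : Hol => (f : ℍ → ℂ) UpperHalfPlane.I) h
    simp at this⟩⟩
  have : NoZeroDivisors Hol := ⟨fun {f g} h => by
    have h' : (f : ℍ → ℂ) * (g : ℍ → ℂ) = 0 := by
      have := congrArg (fun f : Hol => (f : ℍ → ℂ)) h
      simpa using this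
    rcases (UpperHalfPlane.mul_eq_zero_iff f.2 g.2).mp h' with h1 | h1
    · exact Or.inl (Subtype.ext h1)
    · exact Or.inr (Subtype.ext h1)⟩
  exact NoZeroDivisors.to_isDomain _

theorem smul_mem_aux (γ : SL(2, ℤ)) (f : Hol) :
    (fun τ : ℍ => (f : ℍ → ℂ) (γ⁻¹ • τ)) ∈ Hol := by
  have h : MDifferentiable 𝓘(ℂ) 𝓘(ℂ) (fun τ : ℍ => ((γ⁻¹ : SL(2, ℤ)) : GL (Fin 2) ℝ) • τ) :=
    UpperHalfPlane.mdifferentiable_smul (by simp)
  exact f.2.comp h

/-- `SL(2, ℤ)` acts on `Hol` by `(γ • f) τ = f (γ⁻¹ • τ)`. -/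
instance : MulSemiringAction SL(2, ℤ) Hol where
  smul γ f := ⟨fun τ => (f : ℍ → ℂ) (γ⁻¹ • τ), smul_mem_aux γ f⟩
  one_smul f := by
    apply Subtype.ext
    funext τ
    show (f : ℍ → ℂ) ((1 : SL(2, ℤ))⁻¹ • τ) = (f : ℍ → ℂ) τ
    rw [inv_one, one_smul]
  mul_smul γ δ f := by
    apply Subtype.ext
    funext τ
    show (f : ℍ → ℂ) ((γ * δ)⁻¹ • τ) = (f : ℍ → ℂ) (δ⁻¹ • (γ⁻¹ • τ))
    rw [mul_inv_rev, mul_smul]
  smul_zero γ := by
    apply Subtype.ext
    funext τ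
    rfl
  smul_add γ f g := by
    apply Subtype.ext
    funext τ
    rfl
  smul_one γ := by
    apply Subtype.ext
    funext τ
    rfl
  smul_mul γ f g := by
    apply Subtype.ext
    funext τ
    rfl

@[simp] theorem smul_apply (γ : SL(2, ℤ)) (f : Hol) (τ : ℍ) :
    ((γ • f : Hol) : ℍ → ℂ) τ = (f : ℍ → ℂ) (γ⁻¹ • τ) := rfl

instance : SMulCommClass SL(2, ℤ) ℂ Hol := ⟨fun γ c f => by
  apply Subtype.ext
  funext τ
  rfl⟩

/-! ### Orders of vanishing -/

theorem coe_mul_comp (f g : Hol) :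
    ((f * g : Hol) : ℍ → ℂ) ∘ ofComplex
      = ((f : ℍ → ℂ) ∘ ofComplex) * ((g : ℍ → ℂ) ∘ ofComplex) := rfl

theorem coe_add_comp (f g : Hol) :
    ((f + g : Hol) : ℍ → ℂ) ∘ ofComplex
      = ((f : ℍ → ℂ) ∘ ofComplex) + ((g : ℍ → ℂ) ∘ ofComplex) := rfl

theorem coe_pow_comp (f : Hol) (n : ℕ) :
    ((f ^ n : Hol) : ℍ → ℂ) ∘ ofComplex = ((f : ℍ → ℂ) ∘ ofComplex) ^ n := rfl

theorem comp_ofComplex_apply (f : Hol) (τ : ℍ) :
    ((f : ℍ → ℂ) ∘ ofComplex) (τ : ℂ) = (f : ℍ → ℂ) τ := by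
  rw [Function.comp_apply, ofComplex_apply]

/-- A nonzero holomorphic function has finite order of vanishing everywhere. -/
theorem analyticOrderAt_ne_top (τ : ℍ) {f : Hol} (hf : f ≠ 0) :
    analyticOrderAt ((f : ℍ → ℂ) ∘ ofComplex) (τ : ℂ) ≠ ⊤ := by
  intro h
  rw [analyticOrderAt_eq_top] at h
  apply hf
  have han := (Hol.differentiableOn f).analyticOnNhd isOpen_upperHalfPlaneSet
  have hpre : IsPreconnected upperHalfPlaneSet :=
    (Complex.isConnected_of_upperHalfPlane subset_rfl (by grind)).isPreconnected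
  have h0 := han.eqOn_zero_of_preconnected_of_eventuallyEq_zero hpre τ.im_pos h
  apply Subtype.ext
  funext z
  have h1 := h0 z.im_pos
  rw [comp_ofComplex_apply] at h1
  simpa using h1

/-- The order of vanishing at `τ`, as a natural number (`0` for the zero function). -/
def ordNat (τ : ℍ) (f : Hol) : ℕ := (analyticOrderAt ((f : ℍ → ℂ) ∘ ofComplex) (τ : ℂ)).toNat

theorem cast_ordNat (τ : ℍ) {f : Hol} (hf : f ≠ 0) :
    ((ordNat τ f : ℕ) : ℕ∞) = analyticOrderAt ((f : ℍ → ℂ) ∘ ofComplex) (τ : ℂ) :=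
  ENat.natCast_toNat (analyticOrderAt_ne_top τ hf)

theorem ordNat_mul (τ : ℍ) {f g : Hol} (hf : f ≠ 0) (hg : g ≠ 0) :
    ordNat τ (f * g) = ordNat τ f + ordNat τ g := by
  have h := analyticOrderAt_mul (Hol.analyticAt f τ) (Hol.analyticAt g τ)
  rw [← coe_mul_comp, ← cast_ordNat τ hf, ← cast_ordNat τ hg,
    ← cast_ordNat τ (mul_ne_zero hf hg)] at h
  exact_mod_cast h

theorem ordNat_pow (τ : ℍ) {f : Hol} (hf : f ≠ 0) (n : ℕ) :
    ordNat τ (f ^ n) = n * ordNat τ f := by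
  induction n with
  | zero =>
    rw [pow_zero, zero_mul]
    have h1 := (Hol.analyticAt 1 τ).analyticOrderAt_eq_zero.mpr (by
      rw [comp_ofComplex_apply]
      exact one_ne_zero)
    unfold ordNat
    rw [h1]
    rfl
  | succ n ih =>
    rw [pow_succ, ordNat_mul τ (pow_ne_zero n hf) hf, ih]
    ring

theorem ordNat_eq_zero_iff (τ : ℍ) {f : Hol} (hf : f ≠ 0) :
    ordNat τ f = 0 ↔ (f : ℍ → ℂ) τ ≠ 0 := by
  have h := (Hol.analyticAt f τ).analyticOrderAt_eq_zero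
  rw [comp_ofComplex_apply, ← cast_ordNat τ hf] at h
  rw [← h]
  exact_mod_cast Iff.rfl

/-- If `f τ = 0` and the derivative of `f` at `τ` does not vanish, the order is one. -/
theorem ordNat_eq_one (τ : ℍ) (f : Hol) (h0 : (f : ℍ → ℂ) τ = 0)
    (h1 : deriv ((f : ℍ → ℂ) ∘ ofComplex) (τ : ℂ) ≠ 0) : ordNat τ f = 1 := by
  have h := (Hol.analyticAt f τ).analyticOrderAt_eq_one_of_zero_deriv_ne_zero
    (by rw [comp_ofComplex_apply]; exact h0) h1
  simp [ordNat, h]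

theorem ordNat_add_ge (τ : ℍ) {f g : Hol} (hf : f ≠ 0) (hg : g ≠ 0) (hfg : f + g ≠ 0) :
    min (ordNat τ f) (ordNat τ g) ≤ ordNat τ (f + g) := by
  have h := le_analyticOrderAt_add (f := (f : ℍ → ℂ) ∘ ofComplex)
    (g := (g : ℍ → ℂ) ∘ ofComplex) (z₀ := (τ : ℂ))
  rw [← coe_add_comp, ← cast_ordNat τ hf, ← cast_ordNat τ hg, ← cast_ordNat τ hfg] at h
  rcases min_le_iff.mp h with h1 | h1
  · exact min_le_iff.mpr (Or.inl (by exact_mod_cast h1))
  · exact min_le_iff.mpr (Or.inr (by exact_mod_cast h1))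

theorem ordNat_smul (τ : ℍ) (γ : SL(2, ℤ)) (f : Hol) :
    ordNat τ (γ • f) = ordNat (γ⁻¹ • τ) f := by
  unfold ordNat
  congr 1
  have hdet : (0 : ℝ) < (((γ⁻¹ : SL(2, ℤ)) : GL (Fin 2) ℝ)).val.det := by
    have h := Matrix.SpecialLinearGroup.det_mapGL (S := ℝ) (γ⁻¹ : SL(2, ℤ))
    have h2 : (((γ⁻¹ : SL(2, ℤ)) : GL (Fin 2) ℝ)).val.det
        = ((Matrix.SpecialLinearGroup.mapGL ℝ (γ⁻¹ : SL(2, ℤ))).det : ℝˣ).val := rfl
    rw [h2, h]
    simp
  have hG := UpperHalfPlane.analyticAt_smul hdet τ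
  have hG' := UpperHalfPlane.deriv_smul_ne_zero hdet τ
  have h := analyticOrderAt_comp_of_deriv_ne_zero (f := (f : ℍ → ℂ) ∘ ofComplex) hG hG'
  have e1 : (((γ • f : Hol) : ℍ → ℂ) ∘ ofComplex)
      = ((f : ℍ → ℂ) ∘ ofComplex) ∘
          (fun z : ℂ => ((((γ⁻¹ : SL(2, ℤ)) : GL (Fin 2) ℝ) • ofComplex z : ℍ) : ℂ)) := by
    funext z
    simp only [Function.comp_apply, smul_apply, ofComplex_apply]
    rfl
  rw [e1, h]
  simp only [ofComplex_apply]
  rfl

open scoped Classical in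
/-- The valuation "order of vanishing at `τ`" on `Hol`: `f ↦ exp (-(ord_τ f))`, `0 ↦ 0`. -/
def ordVal (τ : ℍ) : Valuation Hol ℤᵐ⁰ where
  toFun f := if f = 0 then 0 else exp (-(ordNat τ f : ℤ))
  map_zero' := by simp
  map_one' := by
    have h := ordNat_pow τ (one_ne_zero : (1 : Hol) ≠ 0) 0
    rw [pow_zero, zero_mul] at h
    simp [h]
  map_mul' f g := by
    by_cases hf : f = 0
    · simp [hf]
    by_cases hg : g = 0
    · simp [hg]
    simp only [hf, hg, mul_ne_zero hf hg, if_false, ordNat_mul τ hf hg, ← exp_add]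
    congr 1
    push_cast
    ring
  map_add_le_max' f g := by
    by_cases hf : f = 0
    · simp [hf]
    by_cases hg : g = 0
    · simp [hg]
    by_cases hfg : f + g = 0
    · simp [hfg]
    simp only [hf, hg, hfg, if_false, le_max_iff, exp_le_exp, neg_le_neg_iff, Nat.cast_le]
    have h := ordNat_add_ge τ hf hg hfg
    rcases min_le_iff.mp h with h | h
    · exact Or.inl h
    · exact Or.inr h

open scoped Classical in
theorem ordVal_apply (τ : ℍ) {f : Hol} (hf : f ≠ 0) :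
    ordVal τ f = exp (-(ordNat τ f : ℤ)) := by
  show (if f = 0 then 0 else exp (-(ordNat τ f : ℤ))) = _
  rw [if_neg hf]

theorem ordVal_le_one (τ : ℍ) (f : Hol) : ordVal τ f ≤ 1 := by
  by_cases hf : f = 0
  · simp [hf]
  rw [ordVal_apply τ hf, ← exp_zero, exp_le_exp]
  simp

theorem ordVal_lt_one_iff (τ : ℍ) (f : Hol) : ordVal τ f < 1 ↔ (f : ℍ → ℂ) τ = 0 := by
  by_cases hf : f = 0
  · simp [hf]
  rw [ordVal_apply τ hf, ← exp_zero, exp_lt_exp]
  have h := ordNat_eq_zero_iff τ hf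
  constructor
  · intro h1
    by_contra h2
    have := h.mpr h2
    omega
  · intro h1
    have : ordNat τ f ≠ 0 := fun h2 => (h.mp h2) h1
    omega

theorem ordVal_algebraMap (τ : ℍ) {c : ℂ} (hc : c ≠ 0) : ordVal τ (algebraMap ℂ Hol c) = 1 := by
  have hne : algebraMap ℂ Hol c ≠ 0 := by
    rw [Ne, map_eq_zero_iff _ (algebraMap ℂ Hol).injective]
    exact hc
  have h0 : ordNat τ (algebraMap ℂ Hol c) = 0 := by
    rw [ordNat_eq_zero_iff τ hne]
    exact hc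
  rw [ordVal_apply τ hne, h0]
  simp

/-- equivariance: `ord_τ (γ • f) = ord_{γ⁻¹ τ} f`. -/
theorem ordVal_smul (τ : ℍ) (γ : SL(2, ℤ)) (f : Hol) :
    ordVal τ (γ • f) = ordVal (γ⁻¹ • τ) f := by
  by_cases hf : f = 0
  · simp [hf]
  have hγ : γ • f ≠ 0 := by
    intro h
    apply hf
    have := congrArg (fun g => γ⁻¹ • g) h
    simpa using this
  rw [ordVal_apply τ hγ, ordVal_apply _ hf, ordNat_smul]

end Hol

end Fermat.Agent.S24
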